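import Mathlib

/-!
# PROGRAM MR (S44), block `mrxa` = EXACT NODE COORDINATES : the abstract algebra (TERM')

Architect's file (helper24).  Prefix `mrxa`.  Namespace `Fermat.Agent.MR`.  Imports Mathlib only.

Setting : `F'` a field, `O ≤ O'` subrings of `F'` (`O` = the local ring of the model of level `M p`
at a node, `O'` = the local ring of the model of the auxiliary level `M' p`, `M ∣ M'`, at a closed
point above it), `V₁ V₂` two valuation rings of `F'` containing `O'` (the two components),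
`π` the uniformiser of the base, and UPSTAIRS a node of thickness one :

* `hprin₁` : `O' ∩ 𝔪_{V₁} = u' O'`,   `hprin₂` : `O' ∩ 𝔪_{V₂} = w' O'`,
* `hu'val` : `V₁(u') = V₁(π)`,
* `hkrull` : `⋂ₙ (u'ⁿ O' + w' O') = w' O'` (Krull's intersection theorem; `mrxa_krull` below).

* `mrxa_peel` : `x ∈ O' ∩ πⁿ V₁ ⟹ x ∈ u'ⁿ O'`;
* `mrxa_term` : **(TERM')** there is `n₀` such that NO pair `(u, w)` of node coordinates downstairs
  (`w` a unit of `V₁`, `x₀ ∈ u O' + w' O'` for the fixed `x₀ ∈ O ∖ 𝔪_{V₂}`) has `u w ∈ π^{n₀} O`;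
* `mrxa_exact` : hence an approximate equation `u w = κ + π^{n₀} ρ` has `κ ∉ π^{n₀} O`;
* `mrxa_thick` : an exact pair `u w = πᵉ ε` downstairs has `u = u'ᵉ · (unit of O')` upstairs
  (thickness `e` = ramification index of the branch);
* `mrxa_krull` : the hypothesis `hkrull` in a Noetherian local ring.
-/

set_option autoImplicit false
set_option linter.unusedSectionVars false
set_option linter.unusedVariables false

namespace Fermat.Agent.MR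

section Peel

variable {F : Type*} [Field F]

/-- `x ∈ O' ∩ πⁿ V ⟹ x ∈ u'ⁿ O'`, when `O' ∩ 𝔪_V = u' O'` and `V(u') = V(π)`. -/
theorem mrxa_peel (O' : Subring F) (V : ValuationSubring F) (π u' : F)
    (hπ0 : π ≠ 0) (hπ : π ∈ V.nonunits)
    (hprin : ∀ x ∈ O', x ∈ V.nonunits → ∃ y ∈ O', x = u' * y)
    (hu'val : V.valuation u' = V.valuation π) :
    ∀ n : ℕ, ∀ x ∈ O', (∃ y ∈ V, x = π ^ n * y) → ∃ z ∈ O', x = u' ^ n * z := by
  have hu'0 : u' ≠ 0 := by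
    intro h
    rw [h, map_zero] at hu'val
    exact hπ0 ((map_eq_zero _).mp hu'val.symm)
  have hπu : π / u' ∈ V := by
    rw [← V.valuation_le_one_iff, map_div₀, hu'val, div_self]
    exact (map_ne_zero _).mpr hπ0
  intro n
  induction n with
  | zero =>
    intro x hx _
    exact ⟨x, hx, by rw [pow_zero, one_mul]⟩
  | succ n ih =>
    intro x hx hxy
    obtain ⟨y, hy, hxy⟩ := hxy
    have hxnu : x ∈ V.nonunits := by
      rw [V.mem_nonunits_iff, hxy, map_mul, map_pow]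
      have h1 : V.valuation π < 1 := (V.mem_nonunits_iff).mp hπ
      have h2 : V.valuation y ≤ 1 := (V.valuation_le_one_iff y).mpr hy
      have h3 : V.valuation π ^ (n + 1) < 1 := pow_lt_one' h1 (Nat.succ_ne_zero n)
      calc V.valuation π ^ (n + 1) * V.valuation y ≤ V.valuation π ^ (n + 1) * 1 :=
            mul_le_mul' le_rfl h2
        _ < 1 := by rwa [mul_one]
    obtain ⟨x₁, hx₁, hxx₁⟩ := hprin x hx hxnu
    have hx₁' : x₁ = π ^ n * (π / u' * y) := by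
      have : u' * x₁ = u' * (π ^ n * (π / u' * y)) := by
        rw [← hxx₁, hxy]
        field_simp
        ring
      exact mul_left_cancel₀ hu'0 this
    obtain ⟨z, hz, hxz⟩ := ih x₁ hx₁ ⟨π / u' * y, V.mul_mem _ _ hπu hy, hx₁'⟩
    exact ⟨z, hz, by rw [hxx₁, hxz]; ring⟩

end Peel

section Term

variable {F : Type*} [Field F]

/-- **(TERM')** thickness one upstairs bounds the precision of every approximate node equation
downstairs. -/
theorem mrxa_term (O O' : Subring F) (hOO' : O ≤ O') (V₁ V₂ : ValuationSubring F)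
    (hO'₁ : ∀ x ∈ O', x ∈ V₁) (hO'₂ : ∀ x ∈ O', x ∈ V₂)
    (π u' w' : F) (hπ0 : π ≠ 0) (hπ₁ : π ∈ V₁.nonunits)
    (hw'₂ : w' ∈ V₂.nonunits)
    (hprin₁ : ∀ x ∈ O', x ∈ V₁.nonunits → ∃ y ∈ O', x = u' * y)
    (hu'val : V₁.valuation u' = V₁.valuation π)
    (hkrull : ∀ x ∈ O', (∀ n : ℕ, ∃ a ∈ O', ∃ b ∈ O', x = u' ^ n * a + w' * b) →
      ∃ b ∈ O', x = w' * b)
    (x₀ : F) (hx₀ : x₀ ∈ O) (hx₀₂ : x₀ ∉ V₂.nonunits) :
    ∃ n₀ : ℕ, ∀ u w g : F, u ∈ O → w ∈ O → g ∈ O → w ≠ 0 → w⁻¹ ∈ V₁ →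
      (∃ a ∈ O', ∃ b ∈ O', x₀ = u * a + w' * b) → u * w ≠ π ^ n₀ * g := by
  by_contra hcon
  push Not at hcon
  apply hx₀₂
  have hall : ∀ n : ℕ, ∃ a ∈ O', ∃ b ∈ O', x₀ = u' ^ n * a + w' * b := by
    intro n
    obtain ⟨u, w, g, hu, hw, hg, hw0, hw₁, ⟨a, ha, b, hb, hx₀ab⟩, huw⟩ := hcon n
    have hu' : ∃ y ∈ V₁, u = π ^ n * y := by
      refine ⟨g * w⁻¹, V₁.mul_mem _ _ (hO'₁ g (hOO' hg)) hw₁, ?_⟩
      rw [← mul_assoc, ← huw, mul_assoc, mul_inv_cancel₀ hw0, mul_one]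
    obtain ⟨z, hz, huz⟩ := mrxa_peel O' V₁ π u' hπ0 hπ₁ hprin₁ hu'val n u (hOO' hu) hu'
    exact ⟨z * a, O'.mul_mem hz ha, b, hb, by rw [hx₀ab, huz]; ring⟩
  obtain ⟨b, hb, hx₀b⟩ := hkrull x₀ (hOO' hx₀) hall
  rw [hx₀b, V₂.mem_nonunits_iff, map_mul]
  have h1 : V₂.valuation w' < 1 := (V₂.mem_nonunits_iff).mp hw'₂
  have h2 : V₂.valuation b ≤ 1 := (V₂.valuation_le_one_iff b).mpr (hO'₂ b hb)
  calc V₂.valuation w' * V₂.valuation b ≤ V₂.valuation w' * 1 := mul_le_mul' le_rfl h2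
    _ < 1 := by rwa [mul_one]

/-- the generation hypothesis of `mrxa_term` from its downstairs form `s x₀ - c u ∈ 𝔪_{V₂}`,
`s` a unit of `O` (main's `SsgaGen`). -/
theorem mrxa_gen_of_sub (O O' : Subring F) (hOO' : O ≤ O') (V₂ : ValuationSubring F) (w' : F)
    (hprin₂ : ∀ x ∈ O', x ∈ V₂.nonunits → ∃ y ∈ O', x = w' * y)
    (x₀ u s c : F) (hx₀ : x₀ ∈ O) (hu : u ∈ O) (hs : s ∈ O) (hs0 : s ≠ 0) (hsinv : s⁻¹ ∈ O)
    (hc : c ∈ O) (h : s * x₀ - c * u ∈ V₂.nonunits) :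
    ∃ a ∈ O', ∃ b ∈ O', x₀ = u * a + w' * b := by
  have hmem : s * x₀ - c * u ∈ O' :=
    hOO' (O.sub_mem (O.mul_mem hs hx₀) (O.mul_mem hc hu))
  obtain ⟨y, hy, hxy⟩ := hprin₂ _ hmem h
  refine ⟨s⁻¹ * c, hOO' (O.mul_mem hsinv hc), s⁻¹ * y, O'.mul_mem (hOO' hsinv) hy, ?_⟩
  have : s * x₀ = c * u + w' * y := by rw [← hxy]; ring
  calc x₀ = s⁻¹ * (s * x₀) := by rw [← mul_assoc, inv_mul_cancel₀ hs0, one_mul]
    _ = u * (s⁻¹ * c) + w' * (s⁻¹ * y) := by rw [this]; ring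

/-- **(EXACT)** at the precision `n₀` of `mrxa_term`, an approximate node equation
`u w = κ + π^{n₀} ρ` has `κ ∉ π^{n₀} O`. -/
theorem mrxa_exact (O : Subring F) (π : F) (n₀ : ℕ) (u w κ ρ : F) (hρ : ρ ∈ O)
    (hne : ∀ g : F, g ∈ O → u * w ≠ π ^ n₀ * g)
    (huw : u * w = κ + π ^ n₀ * ρ) : ∀ c : F, c ∈ O → κ ≠ π ^ n₀ * c := by
  intro c hc hκ
  exact hne (c + ρ) (O.add_mem hc hρ) (by rw [huw, hκ]; ring)

end Term

section Thick

variable {F : Type*} [Field F]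

/-- **(THICK')** an exact pair `u w = πᵉ ε` downstairs (`ε` a unit of `O'`), over a node of
thickness one `π = u' w' ε'` upstairs : `u = u'ᵉ h` with `h` a unit of `O'`. -/
theorem mrxa_thick (O' : Subring F) (V₁ V₂ : ValuationSubring F)
    (hO'₁ : ∀ x ∈ O', x ∈ V₁) (hO'₂ : ∀ x ∈ O', x ∈ V₂)
    (π u' w' ε' : F) (hπ0 : π ≠ 0) (hπ₁ : π ∈ V₁.nonunits) (hπ₂ : π ∈ V₂.nonunits)
    (hprin₁ : ∀ x ∈ O', x ∈ V₁.nonunits → ∃ y ∈ O', x = u' * y)
    (hprin₂ : ∀ x ∈ O', x ∈ V₂.nonunits → ∃ y ∈ O', x = w' * y)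
    (hu'val : V₁.valuation u' = V₁.valuation π) (hw'val : V₂.valuation w' = V₂.valuation π)
    (hε' : ε' ∈ O') (hε'inv : ε'⁻¹ ∈ O') (hup : π = u' * w' * ε')
    (e : ℕ) (u w ε : F) (hu : u ∈ O') (hw : w ∈ O') (hε : ε ∈ O') (hεinv : ε⁻¹ ∈ O')
    (hw0 : w ≠ 0) (hw₁ : w⁻¹ ∈ V₁) (hu0 : u ≠ 0) (hu₂ : u⁻¹ ∈ V₂)
    (huw : u * w = π ^ e * ε) :
    ∃ h ∈ O', h⁻¹ ∈ O' ∧ u = u' ^ e * h := by
  have hε0 : ε ≠ 0 := by
    intro h0
    rw [h0, mul_zero] at huw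
    exact mul_ne_zero hu0 hw0 huw
  have hu1 : ∃ y ∈ V₁, u = π ^ e * y := by
    refine ⟨ε * w⁻¹, V₁.mul_mem _ _ (hO'₁ ε hε) hw₁, ?_⟩
    rw [← mul_assoc, ← huw, mul_assoc, mul_inv_cancel₀ hw0, mul_one]
  have hw1 : ∃ y ∈ V₂, w = π ^ e * y := by
    refine ⟨ε * u⁻¹, V₂.mul_mem _ _ (hO'₂ ε hε) hu₂, ?_⟩
    rw [← mul_assoc, ← huw, mul_comm u w, mul_assoc, mul_inv_cancel₀ hu0, mul_one]
  obtain ⟨h, hh, huh⟩ := mrxa_peel O' V₁ π u' hπ0 hπ₁ hprin₁ hu'val e u hu hu1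
  obtain ⟨h', hh', hwh'⟩ := mrxa_peel O' V₂ π w' hπ0 hπ₂ hprin₂ hw'val e w hw hw1
  have hu'0 : u' ≠ 0 := by
    intro h0; rw [h0, zero_mul, zero_mul] at hup; exact hπ0 hup
  have hw'0 : w' ≠ 0 := by
    intro h0; rw [h0, mul_zero, zero_mul] at hup; exact hπ0 hup
  have hε'0 : ε' ≠ 0 := by
    intro h0; rw [h0, mul_zero] at hup; exact hπ0 hup
  have hh0 : h ≠ 0 := by
    intro h0; rw [h0, mul_zero] at huh; exact hu0 huh
  -- `h h' = ε ε'ᵉ`
  have key : h * h' = ε * ε' ^ e := by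
    have h1 : (u' * w') ^ e * (h * h') = (u' * w') ^ e * (ε * ε' ^ e) := by
      calc (u' * w') ^ e * (h * h') = (u' ^ e * h) * (w' ^ e * h') := by rw [mul_pow]; ring
        _ = u * w := by rw [← huh, ← hwh']
        _ = π ^ e * ε := huw
        _ = (u' * w') ^ e * (ε * ε' ^ e) := by rw [hup, mul_pow]; ring
    exact mul_left_cancel₀ (pow_ne_zero e (mul_ne_zero hu'0 hw'0)) h1
  refine ⟨h, hh, ?_, huh⟩
  have : h⁻¹ = h' * (ε⁻¹ * ε'⁻¹ ^ e) := by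
    rw [eq_comm, ← mul_right_inj' hh0, mul_inv_cancel₀ hh0, ← mul_assoc, key, inv_pow]
    field_simp
  rw [this]
  exact O'.mul_mem hh' (O'.mul_mem hεinv (O'.pow_mem hε'inv e))

end Thick

section Krull

/-- Krull's intersection theorem in the form used by `mrxa_term` : in a Noetherian local ring `R`
with `u'` in the maximal ideal, `⋂ₙ (u'ⁿ R + w' R) = w' R`. -/
theorem mrxa_krull_ring (R : Type*) [CommRing R] [IsNoetherianRing R] [IsLocalRing R]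
    (u' w' : R) (hu' : u' ∈ IsLocalRing.maximalIdeal R) (x : R)
    (h : ∀ n : ℕ, ∃ a b : R, x = u' ^ n * a + w' * b) : ∃ b : R, x = w' * b := by
  set I : Ideal R := Ideal.span {u'} with hI
  set J : Ideal R := Ideal.span {w'} with hJ
  have hItop : I ≠ ⊤ := by
    intro htop
    have : I ≤ IsLocalRing.maximalIdeal R := by
      rw [hI, Ideal.span_singleton_le_iff_mem]; exact hu'
    rw [htop] at this
    exact (IsLocalRing.maximalIdeal.isMaximal R).ne_top (top_le_iff.mp this)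
  have hk := Ideal.iInf_pow_smul_eq_bot_of_isLocalRing (M := R ⧸ J) I hItop
  have hx : (Ideal.Quotient.mk J x : R ⧸ J) ∈ (⨅ i : ℕ, I ^ i • (⊤ : Submodule R (R ⧸ J))) := by
    rw [Submodule.mem_iInf]
    intro n
    obtain ⟨a, b, hab⟩ := h n
    have h1 : (Ideal.Quotient.mk J x : R ⧸ J) = (u' ^ n) • (Ideal.Quotient.mk J a : R ⧸ J) := by
      rw [hab, map_add, map_mul, map_mul]
      have : (Ideal.Quotient.mk J w' : R ⧸ J) = 0 :=
        Ideal.Quotient.eq_zero_iff_mem.mpr (Ideal.mem_span_singleton_self w')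
      rw [this, zero_mul, add_zero]
      rfl
    rw [h1]
    refine Submodule.smul_mem_smul ?_ Submodule.mem_top
    rw [hI, Ideal.span_singleton_pow]
    exact Ideal.mem_span_singleton_self _
  rw [hk, Submodule.mem_bot] at hx
  have hxJ : x ∈ J := Ideal.Quotient.eq_zero_iff_mem.mp hx
  obtain ⟨b, hb⟩ := Ideal.mem_span_singleton'.mp hxJ
  exact ⟨b, by rw [← hb, mul_comm]⟩

/-- `hkrull` of `mrxa_term` for a subring `O'` of a field which is a Noetherian local ring. -/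
theorem mrxa_krull {F : Type*} [Field F] (O' : Subring F) [IsNoetherianRing ↥O'] [IsLocalRing ↥O']
    (u' w' : F) (hu' : u' ∈ O') (hw' : w' ∈ O')
    (hu'max : (⟨u', hu'⟩ : ↥O') ∈ IsLocalRing.maximalIdeal ↥O') :
    ∀ x ∈ O', (∀ n : ℕ, ∃ a ∈ O', ∃ b ∈ O', x = u' ^ n * a + w' * b) → ∃ b ∈ O', x = w' * b := by
  intro x hx h
  obtain ⟨b, hb⟩ := mrxa_krull_ring ↥O' ⟨u', hu'⟩ ⟨w', hw'⟩ hu'max ⟨x, hx⟩ (by
    intro n
    obtain ⟨a, ha, b, hb, hab⟩ := h n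
    exact ⟨⟨a, ha⟩, ⟨b, hb⟩, Subtype.ext (by simp [hab])⟩)
  exact ⟨b.1, b.2, by simpa using congrArg Subtype.val hb⟩

end Krull

end Fermat.Agent.MR
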