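import Mathlib
import Fermat.Agent.SQ.Germ.Main
import Fermat.Agent.SS.Loc.Ring
import Fermat.Agent.SS.K.Krull
import Fermat.Agent.MR.Exact.TermAbs

/-!
# PROGRAM MR (S44), block `mrxa` = EXACT NODE COORDINATES : the upstairs data from main's
`SqgaNode` (thickness one) and `SsgaTwo` (saturation)

Architect's file (helper24).  Prefix `mrxa`.  Namespace `Fermat.Agent.MR`.

Setting of S18 package T : `A` a DVR, `P = s18tInt A t`, `𝔫` a prime of `P` lying on both components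
`V`, `W` (`SqgaOn`), `SsgaTwo ϖ t V W`, and a node of thickness one `r ϖ = u w m`, `r ∉ 𝔫`
(`SqgaNode`, main `SQ.sqct1_j` at an auxiliary level).  With `O' = ssLocRing t 𝔫` :

* `mrxa_up_prin` : `O' ∩ 𝔪_V = u O'`;
* `mrxa_up_val` : `V(u) = V(ϖ)` when `ϖ` is a uniformiser of `V`;
* `mrxa_up_unit` : `ϖ = u w ε'` with `ε'` a unit of `O'`;
* `mrxa_up_le` : `O' ⊆ V`;
* `mrxa_up_mem_max` : `u` lies in the maximal ideal of `O'`;
* `mrxa_up_noeth` : `O'` is Noetherian;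
* **`mrxa_term_of_node`** : (TERM') in one statement : `SqgaNode` upstairs at `𝔫'` bounds the
  precision of every approximate node equation in a subring `O ≤ ssLocRing t 𝔫'`;
* `mrxa_thick_of_node` : (THICK') in one statement;
* `mrxa_nakayama`, **`mrxa_thick_one`** : at the level of the node of thickness one ITSELF, every
  exact crossing pair `u w = ϖᵉ ε` with `𝔫 P_𝔫 = (ϖ, u, w)` has `e = 1`.

These are the hypotheses `hprin₁`, `hprin₂`, `hu'val`, `hO'₁`, `hO'₂` of `mrxa_term` / `mrxa_thick` and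
the input of `mrxa_krull` (`ssLocRing` is a Noetherian local ring : `ssl_isLocalRing`, and
`IsLocalization.isNoetherianRing` with `sskr_isNoetherianRing`).
-/

set_option autoImplicit false
set_option linter.unusedSectionVars false
set_option linter.unusedVariables false

noncomputable section

namespace Fermat.Agent.MR

open Polynomial IntermediateField Fermat.Agent.S18 Fermat.Agent.SS Fermat.Agent.SQ

universe u

variable {A : Type*} [CommRing A] [IsDomain A] [IsDiscreteValuationRing A] [CharZero A]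
variable {L : Type*} [Field L] [Algebra A L] [IsFractionRing A L]
variable {F : Type u} [Field F] [Algebra A F] [Algebra L F] [IsScalarTower A L F]
variable {ϖ : A} {t : F} {𝔫 : Ideal ↥(s18tInt A t)} [h𝔫 : 𝔫.IsPrime]

/-- an element of `P ∖ 𝔫` is a unit of `V` when `𝔫` lies on the component `V`. -/
theorem mrxa_up_val_one {V : ValuationSubring F} (hle : ∀ x ∈ s18tInt A t, x ∈ V)
    (hon : SqgaOn t 𝔫 V) {s : ↥(s18tInt A t)} (hs : s ∉ 𝔫) : V.valuation (s : F) = 1 := by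
  have h1 : V.valuation (s : F) ≤ 1 := (V.valuation_le_one_iff _).mpr (hle _ s.2)
  rcases lt_or_eq_of_le h1 with h | h
  · exact absurd (hon s ((V.mem_nonunits_iff).mpr h)) hs
  · exact h

/-- `O' = P_𝔫 ⊆ V` when `𝔫` lies on the component `V`. -/
theorem mrxa_up_le {V : ValuationSubring F} (hle : ∀ x ∈ s18tInt A t, x ∈ V)
    (hon : SqgaOn t 𝔫 V) : ∀ x ∈ ssLocRing t 𝔫, x ∈ V := by
  rintro x ⟨s, hs, hx⟩
  have hs1 := mrxa_up_val_one hle hon hs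
  rw [← V.valuation_le_one_iff]
  have h2 : V.valuation ((s : F) * x) ≤ 1 := (V.valuation_le_one_iff _).mpr (hle _ hx)
  rwa [map_mul, hs1, one_mul] at h2

/-- **`O' ∩ 𝔪_V = u O'`** at a node of thickness one. -/
theorem mrxa_up_prin {V W : ValuationSubring F} (h2 : SsgaTwo ϖ t V W)
    (honV : SqgaOn t 𝔫 V)
    (u w r m : ↥(s18tInt A t)) (hw : (w : F) ∈ W.nonunits) (hw0 : (w : F) ≠ 0) (hr : r ∉ 𝔫)
    (hrel : (r : F) * algebraMap A F ϖ = (u : F) * (w : F) * (m : F)) :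
    ∀ x ∈ ssLocRing t 𝔫, x ∈ V.nonunits → ∃ y ∈ ssLocRing t 𝔫, x = (u : F) * y := by
  rintro x ⟨s, hs, hx⟩ hxV
  have hs0 : (s : F) ≠ 0 := fun h => hs (by
    have : s = 0 := Subtype.ext h
    rw [this]; exact 𝔫.zero_mem)
  have hr0 : (r : F) ≠ 0 := fun h => hr (by
    have : r = 0 := Subtype.ext h
    rw [this]; exact 𝔫.zero_mem)
  -- `s x w ∈ P ∩ 𝔪_V ∩ 𝔪_W = ϖ P`
  have hsxV : (s : F) * x ∈ V.nonunits := by
    rw [V.mem_nonunits_iff, map_mul]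
    have h1 : V.valuation (s : F) ≤ 1 := (V.valuation_le_one_iff _).mpr (h2.le₁ _ s.2)
    have h3 : V.valuation x < 1 := (V.mem_nonunits_iff).mp hxV
    calc V.valuation (s : F) * V.valuation x ≤ 1 * V.valuation x := mul_le_mul' h1 le_rfl
      _ < 1 := by rwa [one_mul]
  have hmemP : (s : F) * x * (w : F) ∈ s18tInt A t := Subring.mul_mem _ hx w.2
  have hV : (s : F) * x * (w : F) ∈ V.nonunits := by
    rw [V.mem_nonunits_iff, map_mul]
    have h1 : V.valuation (w : F) ≤ 1 := (V.valuation_le_one_iff _).mpr (h2.le₁ _ w.2)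
    have h3 : V.valuation ((s : F) * x) < 1 := (V.mem_nonunits_iff).mp hsxV
    calc V.valuation ((s : F) * x) * V.valuation (w : F) ≤ V.valuation ((s : F) * x) * 1 :=
          mul_le_mul' le_rfl h1
      _ < 1 := by rwa [mul_one]
  have hW : (s : F) * x * (w : F) ∈ W.nonunits := by
    rw [W.mem_nonunits_iff, map_mul]
    have h1 : W.valuation ((s : F) * x) ≤ 1 := (W.valuation_le_one_iff _).mpr (h2.le₂ _ hx)
    have h3 : W.valuation (w : F) < 1 := (W.mem_nonunits_iff).mp hw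
    calc W.valuation ((s : F) * x) * W.valuation (w : F) ≤ 1 * W.valuation (w : F) :=
          mul_le_mul' h1 le_rfl
      _ < 1 := by rwa [one_mul]
  obtain ⟨y, hy, hxy⟩ := h2.sat _ hmemP hV hW
  -- `r s x = u m y`
  have key : (r : F) * (s : F) * x = (u : F) * ((m : F) * y) := by
    have : (r : F) * (s : F) * x * (w : F) = (u : F) * ((m : F) * y) * (w : F) := by
      calc (r : F) * (s : F) * x * (w : F) = (r : F) * ((s : F) * x * (w : F)) := by ring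
        _ = (r : F) * (algebraMap A F ϖ * y) := by rw [hxy]
        _ = ((r : F) * algebraMap A F ϖ) * y := by ring
        _ = (u : F) * ((m : F) * y) * (w : F) := by rw [hrel]; ring
    exact mul_right_cancel₀ hw0 this
  refine ⟨((r : F) * (s : F))⁻¹ * ((m : F) * y), ?_, ?_⟩
  · refine ⟨r * s, fun h => (h𝔫.mem_or_mem h).elim hr hs, ?_⟩
    have e : ((r * s : ↥(s18tInt A t)) : F) * (((r : F) * (s : F))⁻¹ * ((m : F) * y)) =
        (m : F) * y := by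
      push_cast
      rw [← mul_assoc, mul_inv_cancel₀ (mul_ne_zero hr0 hs0), one_mul]
    rw [e]
    exact Subring.mul_mem _ m.2 hy
  · have hrs : (r : F) * (s : F) ≠ 0 := mul_ne_zero hr0 hs0
    rw [← mul_assoc, mul_comm (u : F), mul_assoc, ← key, ← mul_assoc,
      inv_mul_cancel₀ hrs, one_mul]

/-- **`V(u) = V(ϖ)`** at a node of thickness one, `ϖ` a uniformiser of `V`. -/
theorem mrxa_up_val {V : ValuationSubring F} (hle : ∀ x ∈ s18tInt A t, x ∈ V)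
    (honV : SqgaOn t 𝔫 V) (hunif : S18IsUnif V (algebraMap A F ϖ))
    (u w r m : ↥(s18tInt A t)) (hu : (u : F) ∈ V.nonunits) (hr : r ∉ 𝔫)
    (hrel : (r : F) * algebraMap A F ϖ = (u : F) * (w : F) * (m : F)) :
    V.valuation (u : F) = V.valuation (algebraMap A F ϖ) := by
  refine le_antisymm (hunif.2 _ ((V.mem_nonunits_iff).mp hu)) ?_
  have hr1 := mrxa_up_val_one hle honV hr
  have h1 : V.valuation (algebraMap A F ϖ) =
      V.valuation (u : F) * (V.valuation (w : F) * V.valuation (m : F)) := by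
    have := congrArg V.valuation hrel
    rwa [map_mul, hr1, one_mul, map_mul, map_mul, mul_assoc] at this
  rw [h1]
  have hw1 : V.valuation (w : F) ≤ 1 := (V.valuation_le_one_iff _).mpr (hle _ w.2)
  have hm1 : V.valuation (m : F) ≤ 1 := (V.valuation_le_one_iff _).mpr (hle _ m.2)
  calc V.valuation (u : F) * (V.valuation (w : F) * V.valuation (m : F))
      ≤ V.valuation (u : F) * (1 * 1) := mul_le_mul' le_rfl (mul_le_mul' hw1 hm1)
    _ = V.valuation (u : F) := by rw [mul_one, mul_one]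

/-- **`ϖ = u w ε'`, `ε'` a unit of `O'`** at a node of thickness one. -/
theorem mrxa_up_unit {V W : ValuationSubring F} (h2 : SsgaTwo ϖ t V W)
    (hϖ0 : algebraMap A F ϖ ≠ 0)
    (u w r m : ↥(s18tInt A t)) (hu : (u : F) ∈ V.nonunits) (hw : (w : F) ∈ W.nonunits)
    (hr : r ∉ 𝔫)
    (hrel : (r : F) * algebraMap A F ϖ = (u : F) * (w : F) * (m : F)) :
    ∃ ε' ∈ ssLocRing t 𝔫, ε'⁻¹ ∈ ssLocRing t 𝔫 ∧
      algebraMap A F ϖ = (u : F) * (w : F) * ε' := by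
  have hr0 : (r : F) ≠ 0 := fun h => hr (by
    have : r = 0 := Subtype.ext h
    rw [this]; exact 𝔫.zero_mem)
  -- `u w = ϖ z`, `z ∈ P`
  have hV : (u : F) * (w : F) ∈ V.nonunits := by
    rw [V.mem_nonunits_iff, map_mul]
    have h1 : V.valuation (w : F) ≤ 1 := (V.valuation_le_one_iff _).mpr (h2.le₁ _ w.2)
    have h3 : V.valuation (u : F) < 1 := (V.mem_nonunits_iff).mp hu
    calc V.valuation (u : F) * V.valuation (w : F) ≤ V.valuation (u : F) * 1 :=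
          mul_le_mul' le_rfl h1
      _ < 1 := by rwa [mul_one]
  have hW : (u : F) * (w : F) ∈ W.nonunits := by
    rw [W.mem_nonunits_iff, map_mul]
    have h1 : W.valuation (u : F) ≤ 1 := (W.valuation_le_one_iff _).mpr (h2.le₂ _ u.2)
    have h3 : W.valuation (w : F) < 1 := (W.mem_nonunits_iff).mp hw
    calc W.valuation (u : F) * W.valuation (w : F) ≤ 1 * W.valuation (w : F) :=
          mul_le_mul' h1 le_rfl
      _ < 1 := by rwa [one_mul]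
  obtain ⟨z, hz, huwz⟩ := h2.sat _ (Subring.mul_mem _ u.2 w.2) hV hW
  -- `r = z m`
  have hrzm : (r : F) = z * (m : F) := by
    have : algebraMap A F ϖ * (r : F) = algebraMap A F ϖ * (z * (m : F)) := by
      rw [mul_comm, hrel, huwz]; ring
    exact mul_left_cancel₀ hϖ0 this
  have hm : m ∉ 𝔫 := by
    intro hm
    apply hr
    have : r = ⟨z, hz⟩ * m := Subtype.ext (by push_cast; exact hrzm)
    rw [this]
    exact 𝔫.mul_mem_left _ hm
  have hm0 : (m : F) ≠ 0 := fun h => hm (by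
    have : m = 0 := Subtype.ext h
    rw [this]; exact 𝔫.zero_mem)
  refine ⟨(m : F) * (r : F)⁻¹, ?_, ?_, ?_⟩
  · refine ⟨r, hr, ?_⟩
    rw [mul_comm (m : F), ← mul_assoc, mul_inv_cancel₀ hr0, one_mul]
    exact m.2
  · refine ⟨m, hm, ?_⟩
    rw [mul_inv, inv_inv, ← mul_assoc, mul_inv_cancel₀ hm0, one_mul]
    exact r.2
  · rw [← mul_assoc, ← hrel, mul_comm (r : F), mul_assoc, mul_inv_cancel₀ hr0, mul_one]

/-- `u ∈ 𝔪_V ∩ P` lies in the maximal ideal of `O'` when `𝔫` lies on `V`. -/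
theorem mrxa_up_mem_max {V : ValuationSubring F} (honV : SqgaOn t 𝔫 V)
    (u : ↥(s18tInt A t)) (hu : (u : F) ∈ V.nonunits) :
    (⟨(u : F), ssl_int_le_locRing t 𝔫 u.2⟩ : ↥(ssLocRing t 𝔫)) ∈
      IsLocalRing.maximalIdeal ↥(ssLocRing t 𝔫) := by
  have hu𝔫 : u ∈ 𝔫 := honV u hu
  rw [← IsLocalization.AtPrime.map_eq_maximalIdeal 𝔫 ↥(ssLocRing t 𝔫)]
  exact Ideal.mem_map_of_mem _ hu𝔫

/-- `O' = P_𝔫` is Noetherian. -/
theorem mrxa_up_noeth (ht : Transcendental L t) [FiniteDimensional L⟮t⟯ F] :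
    IsNoetherianRing ↥(ssLocRing t 𝔫) := by
  have : IsNoetherianRing ↥(s18tInt A t) := sskr_isNoetherianRing (A := A) (L := L) t ht
  exact IsLocalization.isNoetherianRing 𝔫.primeCompl ↥(ssLocRing t 𝔫) inferInstance

/-- **(TERM') IN ONE STATEMENT.**  `F` is the field of the AUXILIARY level, `𝔫` a prime of its
chart ring lying on both components `V`, `W`, with a node of thickness one (`SqgaNode`); `O` is any
subring of `P_𝔫` (the local ring of the lower level at the node below), `x₀ ∈ O` a unit of `W`.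
Then there is ONE `n₀` such that no pair `(u, w)` in `O` with `w` a unit of `V` and
`x₀ ∈ u O + 𝔪_W` (main's `SsgaGen`, with a denominator `s` invertible in `O`) satisfies
`u w ∈ ϖ^{n₀} O`. -/
theorem mrxa_term_of_node (ht : Transcendental L t) [FiniteDimensional L⟮t⟯ F]
    {V W : ValuationSubring F} (h2 : SsgaTwo ϖ t V W)
    (honV : SqgaOn t 𝔫 V) (honW : SqgaOn t 𝔫 W)
    (hunifV : S18IsUnif V (algebraMap A F ϖ)) (hϖ0 : algebraMap A F ϖ ≠ 0)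
    (hnode : SqgaNode ϖ t V W 𝔫)
    (O : Subring F) (hO : O ≤ ssLocRing t 𝔫) (x₀ : F) (hx₀ : x₀ ∈ O) (hx₀W : x₀ ∉ W.nonunits) :
    ∃ n₀ : ℕ, ∀ u w g : F, u ∈ O → w ∈ O → g ∈ O → w ≠ 0 → w⁻¹ ∈ V →
      (∃ s c : F, s ∈ O ∧ s ≠ 0 ∧ s⁻¹ ∈ O ∧ c ∈ O ∧ s * x₀ - c * u ∈ W.nonunits) →
      u * w ≠ algebraMap A F ϖ ^ n₀ * g := by
  obtain ⟨u', w', r, m, hu', hw', hr, hrel⟩ := hnode
  have hr0 : (r : F) ≠ 0 := fun h => hr (by
    have : r = 0 := Subtype.ext h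
    rw [this]; exact 𝔫.zero_mem)
  have hprod0 : (u' : F) * (w' : F) * (m : F) ≠ 0 := by
    rw [← hrel]; exact mul_ne_zero hr0 hϖ0
  have hw'0 : (w' : F) ≠ 0 := fun h => hprod0 (by rw [h, mul_zero, zero_mul])
  have hu'0 : (u' : F) ≠ 0 := fun h => hprod0 (by rw [h, zero_mul, zero_mul])
  have hrel' : (r : F) * algebraMap A F ϖ = (w' : F) * (u' : F) * (m : F) := by
    rw [hrel]; ring
  have hprin₁ := mrxa_up_prin (𝔫 := 𝔫) h2 honV u' w' r m hw' hw'0 hr hrel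
  have h2' : SsgaTwo ϖ t W V :=
    ⟨h2.le₂, h2.le₁, h2.unif₂, h2.unif₁, fun x hx hW hV => h2.sat x hx hV hW⟩
  have hprin₂ := mrxa_up_prin (𝔫 := 𝔫) h2' honW w' u' r m hu' hu'0 hr hrel'
  have hu'val := mrxa_up_val (𝔫 := 𝔫) h2.le₁ honV hunifV u' w' r m hu' hr hrel
  have := mrxa_up_noeth (A := A) (L := L) (𝔫 := 𝔫) ht
  have hkrull := mrxa_krull (ssLocRing t 𝔫) (u' : F) (w' : F)
    (ssl_int_le_locRing t 𝔫 u'.2) (ssl_int_le_locRing t 𝔫 w'.2)
    (mrxa_up_mem_max (𝔫 := 𝔫) honV u' hu')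
  obtain ⟨n₀, hn₀⟩ := mrxa_term O (ssLocRing t 𝔫) hO V W
    (mrxa_up_le (𝔫 := 𝔫) h2.le₁ honV) (mrxa_up_le (𝔫 := 𝔫) h2.le₂ honW)
    (algebraMap A F ϖ) (u' : F) (w' : F) hϖ0 h2.unif₁ hw' hprin₁ hu'val hkrull x₀ hx₀ hx₀W
  refine ⟨n₀, fun u w g hu hw hg hw0 hwV hgen => ?_⟩
  obtain ⟨s, c, hs, hs0, hsinv, hc, hsub⟩ := hgen
  exact hn₀ u w g hu hw hg hw0 hwV
    (mrxa_gen_of_sub O (ssLocRing t 𝔫) hO W (w' : F) hprin₂ x₀ u s c hx₀ hu hs hs0 hsinv hc hsub)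

/-- **(THICK') IN ONE STATEMENT** : an exact pair `u w = ϖᵉ ε` (`u, w ∈ P_𝔫`, `ε` a unit of `P_𝔫`,
`w` a unit of `V`, `u` a unit of `W`) over a node of thickness one at `𝔫` : `u = u'ᵉ h`, `h` a unit
of `P_𝔫`, where `u'` is the coordinate of the node on the component `V`. -/
theorem mrxa_thick_of_node {V W : ValuationSubring F} (h2 : SsgaTwo ϖ t V W)
    (honV : SqgaOn t 𝔫 V) (honW : SqgaOn t 𝔫 W)
    (hunifV : S18IsUnif V (algebraMap A F ϖ)) (hunifW : S18IsUnif W (algebraMap A F ϖ))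
    (hϖ0 : algebraMap A F ϖ ≠ 0)
    (hnode : SqgaNode ϖ t V W 𝔫) :
    ∃ u' w' : ↥(s18tInt A t), (u' : F) ∈ V.nonunits ∧ (w' : F) ∈ W.nonunits ∧
      (∃ ε' ∈ ssLocRing t 𝔫, ε'⁻¹ ∈ ssLocRing t 𝔫 ∧
        algebraMap A F ϖ = (u' : F) * (w' : F) * ε') ∧
      ∀ (e : ℕ) (u w ε : F), u ∈ ssLocRing t 𝔫 → w ∈ ssLocRing t 𝔫 → ε ∈ ssLocRing t 𝔫 →
        ε⁻¹ ∈ ssLocRing t 𝔫 → w ≠ 0 → w⁻¹ ∈ V → u ≠ 0 → u⁻¹ ∈ W →
        u * w = algebraMap A F ϖ ^ e * ε →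
        ∃ h ∈ ssLocRing t 𝔫, h⁻¹ ∈ ssLocRing t 𝔫 ∧ u = (u' : F) ^ e * h := by
  obtain ⟨u', w', r, m, hu', hw', hr, hrel⟩ := hnode
  have hr0 : (r : F) ≠ 0 := fun h => hr (by
    have : r = 0 := Subtype.ext h
    rw [this]; exact 𝔫.zero_mem)
  have hprod0 : (u' : F) * (w' : F) * (m : F) ≠ 0 := by
    rw [← hrel]; exact mul_ne_zero hr0 hϖ0
  have hw'0 : (w' : F) ≠ 0 := fun h => hprod0 (by rw [h, mul_zero, zero_mul])
  have hu'0 : (u' : F) ≠ 0 := fun h => hprod0 (by rw [h, zero_mul, zero_mul])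
  have hrel' : (r : F) * algebraMap A F ϖ = (w' : F) * (u' : F) * (m : F) := by
    rw [hrel]; ring
  have hprin₁ := mrxa_up_prin (𝔫 := 𝔫) h2 honV u' w' r m hw' hw'0 hr hrel
  have h2' : SsgaTwo ϖ t W V :=
    ⟨h2.le₂, h2.le₁, h2.unif₂, h2.unif₁, fun x hx hW hV => h2.sat x hx hV hW⟩
  have hprin₂ := mrxa_up_prin (𝔫 := 𝔫) h2' honW w' u' r m hu' hu'0 hr hrel'
  have hu'val := mrxa_up_val (𝔫 := 𝔫) h2.le₁ honV hunifV u' w' r m hu' hr hrel
  have hw'val := mrxa_up_val (𝔫 := 𝔫) h2.le₂ honW hunifW w' u' r m hw' hr hrel'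
  obtain ⟨ε', hε', hε'inv, hup⟩ := mrxa_up_unit (𝔫 := 𝔫) h2 hϖ0 u' w' r m hu' hw' hr hrel
  refine ⟨u', w', hu', hw', ⟨ε', hε', hε'inv, hup⟩, ?_⟩
  intro e u w ε hu hw hε hεinv hw0 hwV hu0 huW huw
  exact mrxa_thick (ssLocRing t 𝔫) V W (mrxa_up_le (𝔫 := 𝔫) h2.le₁ honV)
    (mrxa_up_le (𝔫 := 𝔫) h2.le₂ honW) (algebraMap A F ϖ) (u' : F) (w' : F) ε' hϖ0 h2.unif₁
    h2.unif₂ hprin₁ hprin₂ hu'val hw'val hε' hε'inv hup e u w ε hu hw hε hεinv hw0 hwV hu0 huW huw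

/-- Nakayama : a Noetherian local ring whose maximal ideal is generated by three elements of its
square is a field. -/
theorem mrxa_nakayama (R : Type*) [CommRing R] [IsNoetherianRing R] [IsLocalRing R] (π u w : R)
    (hgen : IsLocalRing.maximalIdeal R ≤ Ideal.span {π, u, w})
    (hπ : π ∈ IsLocalRing.maximalIdeal R ^ 2) (hu : u ∈ IsLocalRing.maximalIdeal R ^ 2)
    (hw : w ∈ IsLocalRing.maximalIdeal R ^ 2) : IsLocalRing.maximalIdeal R = ⊥ := by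
  have h1 : Ideal.span {π, u, w} ≤ IsLocalRing.maximalIdeal R ^ 2 := by
    rw [Ideal.span_le]
    intro x hx
    simp only [Set.mem_insert_iff, Set.mem_singleton_iff] at hx
    rcases hx with rfl | rfl | rfl
    · exact hπ
    · exact hu
    · exact hw
  have h2 : IsLocalRing.maximalIdeal R ≤
      IsLocalRing.maximalIdeal R • (IsLocalRing.maximalIdeal R : Submodule R R) := by
    rw [smul_eq_mul, ← pow_two]
    exact hgen.trans h1
  exact Submodule.eq_bot_of_le_smul_of_le_jacobson_bot (IsLocalRing.maximalIdeal R)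
    (IsLocalRing.maximalIdeal R) (IsNoetherian.noetherian _) h2
    (IsLocalRing.maximalIdeal_le_jacobson _)

/-- (THICK') with the node data explicit, on BOTH sides : `u = u'ᵉ h`, `w = w'ᵉ h'`, `h, h'` units
of `P_𝔫`. -/
theorem mrxa_thick_of_rel {V W : ValuationSubring F} (h2 : SsgaTwo ϖ t V W)
    (honV : SqgaOn t 𝔫 V) (honW : SqgaOn t 𝔫 W)
    (hunifV : S18IsUnif V (algebraMap A F ϖ)) (hunifW : S18IsUnif W (algebraMap A F ϖ))
    (hϖ0 : algebraMap A F ϖ ≠ 0)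
    (u' w' r m : ↥(s18tInt A t)) (hu' : (u' : F) ∈ V.nonunits) (hw' : (w' : F) ∈ W.nonunits)
    (hr : r ∉ 𝔫) (hrel : (r : F) * algebraMap A F ϖ = (u' : F) * (w' : F) * (m : F))
    (e : ℕ) (u w ε : F) (hu : u ∈ ssLocRing t 𝔫) (hw : w ∈ ssLocRing t 𝔫)
    (hε : ε ∈ ssLocRing t 𝔫) (hεinv : ε⁻¹ ∈ ssLocRing t 𝔫)
    (hw0 : w ≠ 0) (hwV : w⁻¹ ∈ V) (hu0 : u ≠ 0) (huW : u⁻¹ ∈ W)
    (huw : u * w = algebraMap A F ϖ ^ e * ε) :
    (∃ h ∈ ssLocRing t 𝔫, h⁻¹ ∈ ssLocRing t 𝔫 ∧ u = (u' : F) ^ e * h) ∧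
      (∃ h' ∈ ssLocRing t 𝔫, h'⁻¹ ∈ ssLocRing t 𝔫 ∧ w = (w' : F) ^ e * h') := by
  have hr0 : (r : F) ≠ 0 := fun h => hr (by
    have : r = 0 := Subtype.ext h
    rw [this]; exact 𝔫.zero_mem)
  have hprod0 : (u' : F) * (w' : F) * (m : F) ≠ 0 := by
    rw [← hrel]; exact mul_ne_zero hr0 hϖ0
  have hw'0 : (w' : F) ≠ 0 := fun h => hprod0 (by rw [h, mul_zero, zero_mul])
  have hu'0 : (u' : F) ≠ 0 := fun h => hprod0 (by rw [h, zero_mul, zero_mul])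
  have hrel' : (r : F) * algebraMap A F ϖ = (w' : F) * (u' : F) * (m : F) := by
    rw [hrel]; ring
  have hprin₁ := mrxa_up_prin (𝔫 := 𝔫) h2 honV u' w' r m hw' hw'0 hr hrel
  have h2' : SsgaTwo ϖ t W V :=
    ⟨h2.le₂, h2.le₁, h2.unif₂, h2.unif₁, fun x hx hW hV => h2.sat x hx hV hW⟩
  have hprin₂ := mrxa_up_prin (𝔫 := 𝔫) h2' honW w' u' r m hu' hu'0 hr hrel'
  have hu'val := mrxa_up_val (𝔫 := 𝔫) h2.le₁ honV hunifV u' w' r m hu' hr hrel
  have hw'val := mrxa_up_val (𝔫 := 𝔫) h2.le₂ honW hunifW w' u' r m hw' hr hrel'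
  obtain ⟨ε', hε', hε'inv, hup⟩ := mrxa_up_unit (𝔫 := 𝔫) h2 hϖ0 u' w' r m hu' hw' hr hrel
  have hup' : algebraMap A F ϖ = (w' : F) * (u' : F) * ε' := by rw [hup]; ring
  have huw' : w * u = algebraMap A F ϖ ^ e * ε := by rw [mul_comm]; exact huw
  exact ⟨mrxa_thick (ssLocRing t 𝔫) V W (mrxa_up_le (𝔫 := 𝔫) h2.le₁ honV)
      (mrxa_up_le (𝔫 := 𝔫) h2.le₂ honW) (algebraMap A F ϖ) (u' : F) (w' : F) ε' hϖ0 h2.unif₁
      h2.unif₂ hprin₁ hprin₂ hu'val hw'val hε' hε'inv hup e u w ε hu hw hε hεinv hw0 hwV hu0 huW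
      huw,
    mrxa_thick (ssLocRing t 𝔫) W V (mrxa_up_le (𝔫 := 𝔫) h2.le₂ honW)
      (mrxa_up_le (𝔫 := 𝔫) h2.le₁ honV) (algebraMap A F ϖ) (w' : F) (u' : F) ε' hϖ0 h2.unif₂
      h2.unif₁ hprin₂ hprin₁ hw'val hu'val hε' hε'inv hup' e w u ε hw hu hε hεinv hu0 huW hw0 hwV
      huw'⟩

/-- **THICKNESS ONE IS INTRINSIC** : at a prime `𝔫` carrying a node of thickness one (`SqgaNode`),
every exact crossing pair `u w = ϖᵉ ε` (`ε` a unit of `P_𝔫`, `𝔫 P_𝔫 = (ϖ, u, w)`, `w` a unit of `V`,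
`u` a unit of `W`) has `e = 1`. -/
theorem mrxa_thick_one (ht : Transcendental L t) [FiniteDimensional L⟮t⟯ F]
    {V W : ValuationSubring F} (h2 : SsgaTwo ϖ t V W)
    (honV : SqgaOn t 𝔫 V) (honW : SqgaOn t 𝔫 W)
    (hunifV : S18IsUnif V (algebraMap A F ϖ)) (hunifW : S18IsUnif W (algebraMap A F ϖ))
    (hϖ0 : algebraMap A F ϖ ≠ 0)
    (hnode : SqgaNode ϖ t V W 𝔫)
    (e : ℕ) (u w ε : F) (hu : SsInMax t 𝔫 u) (hw : SsInMax t 𝔫 w)
    (hspan : SsgaSpan3 ϖ t 𝔫 u w)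
    (hε : ε ∈ ssLocRing t 𝔫) (hεinv : ε⁻¹ ∈ ssLocRing t 𝔫)
    (hw0 : w ≠ 0) (hwV : w⁻¹ ∈ V) (hu0 : u ≠ 0) (huW : u⁻¹ ∈ W)
    (huw : u * w = algebraMap A F ϖ ^ e * ε) : e = 1 := by
  have hnoeth := mrxa_up_noeth (A := A) (L := L) (𝔫 := 𝔫) ht
  have huO : u ∈ ssLocRing t 𝔫 := hu.inLoc
  have hwO : w ∈ ssLocRing t 𝔫 := hw.inLoc
  have humax : (⟨u, huO⟩ : ↥(ssLocRing t 𝔫)) ∈ IsLocalRing.maximalIdeal ↥(ssLocRing t 𝔫) :=
    (ssl_mem_maximalIdeal t 𝔫 _).mpr hu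
  have hε0 : ε ≠ 0 := by
    intro h0
    rw [h0, mul_zero] at huw
    exact mul_ne_zero hu0 hw0 huw
  -- `e ≠ 0`
  have he0 : e ≠ 0 := by
    intro he
    rw [he, pow_zero, one_mul] at huw
    have hunit : IsUnit (⟨ε, hε⟩ : ↥(ssLocRing t 𝔫)) :=
      isUnit_iff_exists_inv.mpr ⟨⟨ε⁻¹, hεinv⟩, Subtype.ext (mul_inv_cancel₀ hε0)⟩
    have hmem : (⟨ε, hε⟩ : ↥(ssLocRing t 𝔫)) ∈ IsLocalRing.maximalIdeal ↥(ssLocRing t 𝔫) := by
      have : (⟨ε, hε⟩ : ↥(ssLocRing t 𝔫)) = ⟨u, huO⟩ * ⟨w, hwO⟩ := Subtype.ext huw.symm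
      rw [this]
      exact Ideal.mul_mem_right _ _ humax
    exact (IsLocalRing.mem_maximalIdeal _).mp hmem hunit
  by_contra hne
  have he2 : 2 ≤ e := by omega
  obtain ⟨u', w', r, m, hu', hw', hr, hrel⟩ := hnode
  obtain ⟨⟨h, hh, -, huh⟩, ⟨h', hh', -, hwh'⟩⟩ :=
    mrxa_thick_of_rel (𝔫 := 𝔫) h2 honV honW hunifV hunifW hϖ0 u' w' r m hu' hw' hr hrel
      e u w ε huO hwO hε hεinv hw0 hwV hu0 huW huw
  obtain ⟨ε', hε', -, hup⟩ := mrxa_up_unit (𝔫 := 𝔫) h2 hϖ0 u' w' r m hu' hw' hr hrel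
  -- names in the local ring
  set R := ↥(ssLocRing t 𝔫) with hR
  set 𝔪 := IsLocalRing.maximalIdeal R with h𝔪
  let U' : R := ⟨(u' : F), ssl_int_le_locRing t 𝔫 u'.2⟩
  let W' : R := ⟨(w' : F), ssl_int_le_locRing t 𝔫 w'.2⟩
  have hU'max : U' ∈ 𝔪 := mrxa_up_mem_max (𝔫 := 𝔫) honV u' hu'
  have hW'max : W' ∈ 𝔪 := mrxa_up_mem_max (𝔫 := 𝔫) honW w' hw'
  have hsq : ∀ x : R, x ∈ 𝔪 → ∀ y : R, x ^ e * y ∈ 𝔪 ^ 2 := by
    intro x hx y
    have : x ^ e = x ^ 2 * x ^ (e - 2) := by rw [← pow_add]; congr 1; omega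
    rw [this, mul_assoc]
    exact Ideal.mul_mem_right _ _ (Ideal.pow_mem_pow hx 2)
  have hu2 : (⟨u, huO⟩ : R) ∈ 𝔪 ^ 2 := by
    have : (⟨u, huO⟩ : R) = U' ^ e * ⟨h, hh⟩ := Subtype.ext (by
      show u = (u' : F) ^ e * h
      exact huh)
    rw [this]
    exact hsq U' hU'max _
  have hw2 : (⟨w, hwO⟩ : R) ∈ 𝔪 ^ 2 := by
    have : (⟨w, hwO⟩ : R) = W' ^ e * ⟨h', hh'⟩ := Subtype.ext (by
      show w = (w' : F) ^ e * h'
      exact hwh')
    rw [this]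
    exact hsq W' hW'max _
  have hϖO : algebraMap A F ϖ ∈ ssLocRing t 𝔫 :=
    ssl_int_le_locRing t 𝔫 (s18tc_algebraMap_mem_int t ϖ)
  have hπ2 : (⟨algebraMap A F ϖ, hϖO⟩ : R) ∈ 𝔪 ^ 2 := by
    have : (⟨algebraMap A F ϖ, hϖO⟩ : R) = U' * W' * ⟨ε', hε'⟩ := Subtype.ext (by
      show algebraMap A F ϖ = (u' : F) * (w' : F) * ε'
      exact hup)
    rw [this, pow_two]
    exact Ideal.mul_mem_right _ _ (Ideal.mul_mem_mul hU'max hW'max)
  -- generation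
  have hgen : 𝔪 ≤ Ideal.span {(⟨algebraMap A F ϖ, hϖO⟩ : R), ⟨u, huO⟩, ⟨w, hwO⟩} := by
    intro x hx
    obtain ⟨s, hs, p₀, hp₀, hsx⟩ := (ssl_mem_maximalIdeal t 𝔫 x).mp hx
    obtain ⟨s', hs', a, b, c, habc⟩ := hspan p₀ hp₀
    have hs0 : (s : F) ≠ 0 := fun h => hs (by
      have : s = 0 := Subtype.ext h
      rw [this]; exact 𝔫.zero_mem)
    have hs'0 : (s' : F) ≠ 0 := fun h => hs' (by
      have : s' = 0 := Subtype.ext h
      rw [this]; exact 𝔫.zero_mem)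
    have hinv : ((s' : F) * (s : F))⁻¹ ∈ ssLocRing t 𝔫 := by
      refine ⟨s' * s, fun h => (h𝔫.mem_or_mem h).elim hs' hs, ?_⟩
      push_cast
      rw [mul_inv_cancel₀ (mul_ne_zero hs'0 hs0)]
      exact Subring.one_mem _
    let T : R := ⟨((s' : F) * (s : F))⁻¹, hinv⟩
    have hx' : x = T * (⟨(a : F), ssl_int_le_locRing t 𝔫 a.2⟩ * ⟨algebraMap A F ϖ, hϖO⟩ +
        ⟨(b : F), ssl_int_le_locRing t 𝔫 b.2⟩ * ⟨u, huO⟩ +
        ⟨(c : F), ssl_int_le_locRing t 𝔫 c.2⟩ * ⟨w, hwO⟩) := by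
      apply Subtype.ext
      show (x : F) = ((s' : F) * (s : F))⁻¹ * ((a : F) * algebraMap A F ϖ + (b : F) * u + (c : F) * w)
      rw [← habc, ← hsx]
      field_simp
    rw [hx']
    refine Ideal.mul_mem_left _ _ (Ideal.add_mem _ (Ideal.add_mem _ ?_ ?_) ?_)
    · exact Ideal.mul_mem_left _ _ (Ideal.subset_span (by simp))
    · exact Ideal.mul_mem_left _ _ (Ideal.subset_span (by simp))
    · exact Ideal.mul_mem_left _ _ (Ideal.subset_span (by simp))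
  have hbot := mrxa_nakayama R _ _ _ hgen hπ2 hu2 hw2
  have hU'0 : U' = 0 := by
    have : U' ∈ (⊥ : Ideal R) := hbot ▸ hU'max
    simpa using this
  have hu'0 : (u' : F) = 0 := congrArg (fun z : R => (z : F)) hU'0
  have hr0 : (r : F) ≠ 0 := fun h => hr (by
    have : r = 0 := Subtype.ext h
    rw [this]; exact 𝔫.zero_mem)
  exact mul_ne_zero hr0 hϖ0 (by rw [hrel, hu'0, zero_mul, zero_mul])

end Fermat.Agent.MR
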